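import Fermat.Agent.MahlerClass.Classes
import Mathlib.LinearAlgebra.Vandermonde
import Mathlib.RingTheory.AlgebraicIndependent.Basic

/-!
# Algebraically dependent numbers belong to the same class

A small value of `P` at `y` gives a small value at `x` of the determinant of multiplication by
`P y`, whose degree is `O (n)` and whose height is a bounded power of that of `P`.
-/

set_option autoImplicit false

noncomputable section

open Finset Matrix Filter Polynomial
open scoped Topology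

namespace FA.MahlerClass

open FA.Transference

variable {m n : ℕ}

theorem exists_relation_of_dependent {x y : ℝ} (hx : Transcendental ℤ x)
    (h : ¬AlgebraicIndependent ℤ ![x, y]) :
    ∃ k, ∃ c : Fin k → ℤ[X], (∃ l, (aeval x : ℤ[X] →ₐ[ℤ] ℝ).toRingHom (c l) ≠ 0) ∧
      ∑ l, (aeval x : ℤ[X] →ₐ[ℤ] ℝ).toRingHom (c l) * y ^ (l : ℕ) = 0 := by
  obtain ⟨p, hp0, hp⟩ : ∃ p, MvPolynomial.aeval ![x, y] p = (0 : ℝ) ∧ p ≠ 0 := by
    by_contra! hall
    exact h (algebraicIndependent_iff.2 hall)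
  let Φ : MvPolynomial (Fin 2) ℤ →+* ℤ[X][X] :=
    (MvPolynomial.aeval (R := ℤ) (S₁ := ℤ[X][X]) ![C X, X]).toRingHom
  let Ψ : ℤ[X][X] →+* MvPolynomial (Fin 2) ℤ :=
    eval₂RingHom (aeval (MvPolynomial.X 0 : MvPolynomial (Fin 2) ℤ)).toRingHom (MvPolynomial.X 1)
  have hinv : Ψ.comp Φ = RingHom.id _ := MvPolynomial.ringHom_ext (fun r => by simp [Φ, Ψ])
    fun i => by fin_cases i <;> simp [Φ, Ψ]
  set E := eval₂RingHom (aeval x : ℤ[X] →ₐ[ℤ] ℝ).toRingHom y
  have hev : E.comp Φ = (MvPolynomial.aeval ![x, y]).toRingHom :=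
    MvPolynomial.ringHom_ext (fun r => by simp [Φ, E]) fun i => by fin_cases i <;> simp [Φ, E]
  have hQ : Φ p ≠ 0 := fun h0 => hp <| by
    have := DFunLike.congr_fun hinv p
    simpa [h0] using this.symm
  have hQy : E (Φ p) = 0 := (DFunLike.congr_fun hev p).trans hp0
  refine ⟨(Φ p).natDegree + 1, fun l => (Φ p).coeff l, ⟨Fin.last _, fun h0 => ?_⟩, ?_⟩
  · refine leadingCoeff_ne_zero.2 hQ (transcendental_iff_injective.1 hx ?_)
    simpa using h0
  · rw [coe_eval₂RingHom, eval₂_eq_sum_range] at hQy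
    rw [Fin.sum_univ_eq_sum_range
      (fun l => (aeval x : ℤ[X] →ₐ[ℤ] ℝ).toRingHom ((Φ p).coeff l) * y ^ l)]
    exact hQy

theorem natDegree_reduce_le {a : ℤ[X]} {f : Fin (m + 1) → ℤ[X]} {E : ℕ} (ha : a.natDegree ≤ E)
    (hf : ∀ l, (f l).natDegree ≤ E) : ∀ k l, (reduce a f k l).natDegree ≤ k * E
  | 0, l => by
    rcases eq_or_ne l 0 with rfl | hl <;> simp [reduce, *]
  | k + 1, l => by
    have ih := natDegree_reduce_le ha hf k
    rw [reduce, add_one_mul]
    refine natDegree_add_le_of_degree_le ?_ (natDegree_mul_le.trans (add_le_add (ih _) (hf l)))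
    refine Fin.cases ?_ (fun i => ?_) l
    · simp
    · rw [Fin.cons_succ, add_comm]
      exact natDegree_mul_le.trans (add_le_add ha (ih _))

theorem natDegree_det_mulMatrix_le {a : ℤ[X]} {f : Fin (m + 1) → ℤ[X]} {E : ℕ}
    (ha : a.natDegree ≤ E) (hf : ∀ l, (f l).natDegree ≤ E) (p : Fin (n + 1) → ℤ) :
    (mulMatrix a f p).det.natDegree ≤ (m + 1) * ((n + m) * E) := by
  rw [det_apply]
  refine natDegree_sum_le_of_forall_le _ _ fun σ _ => ?_
  refine (natDegree_smul_le _ _).trans ((natDegree_prod_le _ _).trans ?_)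
  refine (sum_le_card_nsmul _ _ ((n + m) * E) fun j _ => ?_).trans_eq (by simp)
  rw [mulMatrix, of_apply]
  refine natDegree_sum_le_of_forall_le _ _ fun i _ => ?_
  refine natDegree_mul_le.trans ?_
  rw [natDegree_intCast, zero_add]
  refine natDegree_mul_le.trans ((Nat.add_le_add (natDegree_pow_le.trans (Nat.mul_le_mul_left _ ha))
    (natDegree_reduce_le ha hf _ _)).trans ?_)
  rw [← add_mul, Nat.sub_add_cancel
    (by have := i.isLt; have := (σ j).isLt; have := j.isLt; omega)]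

theorem exists_norm_coeff_le (k : ℕ) :
    ∃ K : ℝ, 0 ≤ K ∧ ∀ P : ℤ[X], P.natDegree ≤ k → ∀ B : ℝ, 0 ≤ B →
      (∀ j : Fin (k + 1), |aeval ((j : ℕ) : ℝ) P| ≤ B) →
      ‖fun i : Fin (k + 1) => P.coeff i‖ ≤ K * B := by
  set V : Matrix (Fin (k + 1)) (Fin (k + 1)) ℝ := vandermonde fun j => ((j : ℕ) : ℝ) with hV
  have hker : LinearMap.ker V.mulVecLin = ⊥ := by
    refine LinearMap.ker_eq_bot'.2 fun c hc => by_contra fun hne => ?_
    exact det_vandermonde_ne_zero_iff.2 (fun i j h => Fin.ext (by exact_mod_cast h))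
      (exists_mulVec_eq_zero_iff.1 ⟨c, hne, hc⟩)
  obtain ⟨K, -, hanti⟩ := V.mulVecLin.exists_antilipschitzWith hker
  refine ⟨K, K.coe_nonneg, fun P hP B hB h => ?_⟩
  set c : Fin (k + 1) → ℝ := fun i => (P.coeff i : ℝ) with hc
  have hVc : ∀ j, (V.mulVecLin c) j = aeval ((j : ℕ) : ℝ) P := fun j => by
    rw [aeval_eq_sum_range' (Nat.lt_succ_of_le hP), ← Fin.sum_univ_eq_sum_range
      (fun i => P.coeff i • ((j : ℕ) : ℝ) ^ i)]
    simp [hV, hc, mulVec, dotProduct, vandermonde_apply, zsmul_eq_mul, mul_comm]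
  have hb := ZeroHomClass.bound_of_antilipschitz V.mulVecLin hanti c
  refine le_trans ?_ (hb.trans (mul_le_mul_of_nonneg_left
    ((pi_norm_le_iff_of_nonneg hB).2 fun j => by rw [Real.norm_eq_abs, hVc]; exact h j)
    K.coe_nonneg))
  refine (pi_norm_le_iff_of_nonneg (norm_nonneg _)).2 fun i => ?_
  rw [Int.norm_eq_abs]
  exact norm_le_pi_norm c i

/-- **Transfer of exponents.** -/
theorem exists_mahlerExp_le_of_dependent {x y : ℝ} (hx : Transcendental ℤ x)
    (h : ¬AlgebraicIndependent ℤ ![x, y]) :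
    ∃ D d : ℕ, ∀ n : ℕ, 0 < n → ∀ B : ℝ, 0 ≤ B → mahlerExp (D * n) x ≤ (B : EReal) →
      mahlerExp n y ≤ ((((d : ℝ) + 1) * B + d : ℝ) : EReal) := by
  set φ : ℤ[X] →+* ℝ := (aeval x : ℤ[X] →ₐ[ℤ] ℝ).toRingHom with hφdef
  have hφ : Function.Injective φ := transcendental_iff_injective.1 hx
  obtain ⟨m, a, f, hrel⟩ := exists_isMinRelation φ y (exists_relation_of_dependent hx h)
  set E := max a.natDegree (univ.sup fun l => (f l).natDegree) with hE
  refine ⟨(m + 1) * ((m + 1) * E), m, fun n hn B hB hxB => mahlerExp_le_iff.2 fun w hw => ?_⟩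
  set k := (m + 1) * ((n + m) * E) with hk
  have hkD : k ≤ (m + 1) * ((m + 1) * E) * n := by
    rw [hk, mul_assoc, mul_right_comm (m + 1) E n]
    refine Nat.mul_le_mul_left _ (Nat.mul_le_mul_right _ ?_)
    have := Nat.le_mul_of_pos_right m hn
    rw [add_one_mul]
    omega
  obtain ⟨C, hC, hC'⟩ := exists_abs_det_le_eval φ y hrel n
  obtain ⟨K, hK, hK'⟩ := exists_norm_coeff_le k
  choose L hL hL' using fun j : Fin (k + 1) =>
    exists_abs_det_le (aeval ((j : ℕ) : ℝ) : ℤ[X] →ₐ[ℤ] ℝ).toRingHom a f n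
  set C' : ℝ := max 1 (K * ∑ j, L j) with hC'def
  have hm1 : (0 : ℝ) < (m : ℝ) + 1 := by positivity
  obtain ⟨v, hv1, hv2⟩ : ∃ v, B < v ∧ v < (w - m) / ((m : ℝ) + 1) := exists_between
    ((lt_div_iff₀ hm1).2 (by linarith))
  have hfin : (smallSet k x v).Finite := finite_of_mahlerExp_lt
    (((mahlerExp_mono x hkD).trans hxB).trans_lt (EReal.coe_lt_coe_iff.2 hv1))
  obtain ⟨ε, hε, hεle⟩ : ∃ ε : ℝ, 0 < ε ∧ ∀ q ∈ smallSet k x v, ε ≤ |polyEval q x| := by
    rcases (smallSet k x v).eq_empty_or_nonempty with h0 | h0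
    · exact ⟨1, one_pos, by simp [h0]⟩
    · obtain ⟨q, hq, hmin⟩ := Set.exists_min_image _ (fun q => |polyEval q x|) hfin h0
      exact ⟨_, abs_pos.2 hq.1, hmin⟩
  by_contra hinf
  have hgap : 0 < w - m - ((m : ℝ) + 1) * v := by
    rw [lt_div_iff₀ hm1] at hv2
    linarith
  have hwm : 0 < w - m := by nlinarith
  obtain ⟨R, hR⟩ := eventually_atTop.1
    (((tendsto_mul_rpow_neg (C * C' ^ v) hgap).eventually_le_const zero_lt_one).and
      ((tendsto_mul_rpow_neg C hwm).eventually_lt_const hε))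
  obtain ⟨p, ⟨hp0, hp⟩, hpR⟩ := exists_norm_gt hinf R
  obtain ⟨hR1, hR2⟩ := hR _ hpR.le
  have hH : 0 < ‖p‖ := zero_lt_one.trans_le (one_le_norm_intVector (ne_zero_of_mem ⟨hp0, hp⟩))
  set P := (mulMatrix a f p).det with hPdef
  have hdeg : P.natDegree ≤ k := natDegree_det_mulMatrix_le (le_max_left _ _)
    (fun l => le_trans (le_sup (f := fun l => (f l).natDegree) (mem_univ l)) (le_max_right _ _)) p
  set q : Fin (k + 1) → ℤ := fun i => P.coeff i with hq
  have hqx : polyEval q x = φ P := by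
    rw [polyEval, hφdef, AlgHom.toRingHom_eq_coe, RingHom.coe_coe,
      aeval_eq_sum_range' (Nat.lt_succ_of_le hdeg),
      ← Fin.sum_univ_eq_sum_range (fun i => P.coeff i • x ^ i)]
    simp [hq, zsmul_eq_mul]
  have hq0 : polyEval q x ≠ 0 := hqx ▸ map_det_mulMatrix_ne_zero φ y hφ hrel hp0
  have hqle : |polyEval q x| ≤ C * ‖p‖ ^ (-(w - m)) := by
    rw [hqx]
    refine (hC' p).trans (mul_le_mul_of_nonneg_left ?_ hC)
    rw [show -(w - (m : ℝ)) = -w + m by ring, Real.rpow_add hH, Real.rpow_natCast]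
    exact mul_le_mul_of_nonneg_right hp (by positivity)
  have hq1 : q ≠ 0 := fun h0 => hq0 (by simp [h0, polyEval])
  have hqn : ‖q‖ ≤ C' * ‖p‖ ^ (m + 1) := by
    refine (hK' P hdeg _ (mul_nonneg (sum_nonneg fun j _ => hL j) (by positivity))
      fun j => (hL' j p).trans (mul_le_mul_of_nonneg_right
        (single_le_sum (fun j _ => hL j) (mem_univ j)) (by positivity))).trans ?_
    rw [← mul_assoc]
    exact mul_le_mul_of_nonneg_right (le_max_right _ _) (by positivity)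
  have hv0 : 0 ≤ v := hB.trans hv1.le
  refine (hεle q ⟨hq0, ?_⟩).not_gt (hqle.trans_lt hR2)
  refine hqle.trans (le_trans ?_ (Real.rpow_le_rpow_of_nonpos
    (zero_lt_one.trans_le (one_le_norm_intVector hq1)) hqn (neg_nonpos.2 hv0)))
  have hC'0 : 0 < C' := zero_lt_one.trans_le (le_max_left _ _)
  rw [Real.mul_rpow hC'0.le (by positivity), ← Real.rpow_natCast, ← Real.rpow_mul hH.le]
  refine le_of_mul_le_mul_left ?_ (Real.rpow_pos_of_pos hC'0 v)
  rw [← mul_assoc (C' ^ v) (C' ^ (-v)), ← Real.rpow_add hC'0, add_neg_cancel, Real.rpow_zero,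
    one_mul]
  calc C' ^ v * (C * ‖p‖ ^ (-(w - m)))
      = C * C' ^ v * ‖p‖ ^ (-(w - m - ((m : ℝ) + 1) * v)) * ‖p‖ ^ (((m + 1 : ℕ) : ℝ) * -v) := by
        rw [mul_assoc (C * C' ^ v), ← Real.rpow_add hH]
        push_cast
        ring_nf
    _ ≤ 1 * ‖p‖ ^ (((m + 1 : ℕ) : ℝ) * -v) := mul_le_mul_of_nonneg_right hR1 (by positivity)
    _ = _ := one_mul _

theorem isU_of_dependent {x y : ℝ} (hx : Transcendental ℤ x)
    (h : ¬AlgebraicIndependent ℤ ![x, y]) (hy : IsU y) : IsU x := by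
  obtain ⟨D, d, hD⟩ := exists_mahlerExp_le_of_dependent hx h
  obtain ⟨n, hn⟩ := hy
  refine ⟨D * (n + 1), by_contra fun hne => ?_⟩
  obtain ⟨B, hB, -⟩ := EReal.lt_iff_exists_real_btwn.1 (lt_top_iff_ne_top.2 hne)
  have h1 := hD (n + 1) n.succ_pos (max B 0) (le_max_right _ _)
    (hB.le.trans (EReal.coe_le_coe_iff.2 (le_max_left _ _)))
  have h2 := top_le_iff.1 (hn ▸ mahlerExp_le_succ n y)
  exact absurd (h2 ▸ h1) (not_le.2 (EReal.coe_lt_top _))

theorem isS_of_dependent {x y : ℝ} (hx : Transcendental ℤ x) (hy : Transcendental ℤ y)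
    (h : ¬AlgebraicIndependent ℤ ![x, y]) (hS : IsS x) : IsS y := by
  obtain ⟨D, d, hD⟩ := exists_mahlerExp_le_of_dependent hx h
  obtain ⟨-, c, hc⟩ := hS
  refine ⟨not_isA_of_transcendental hy, ((d : ℝ) + 1) * (max c 0 * D) + d, fun n hn => ?_⟩
  have hB : mahlerExp (D * n) x ≤ ((max c 0 * D * n : ℝ) : EReal) := by
    rcases Nat.eq_zero_or_pos D with hD0 | hD0
    · subst hD0
      simp only [Nat.cast_zero, mul_zero, zero_mul]
      refine mahlerExp_le_iff.2 fun w hw => ?_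
      by_contra hinf
      obtain ⟨p, ⟨hp0, hp⟩, hpR⟩ := exists_norm_gt hinf 1
      have e : polyEval p x = p 0 := by simp [polyEval]
      rw [e] at hp0 hp
      have h1 : (1 : ℝ) ≤ |(p 0 : ℝ)| := by exact_mod_cast Int.one_le_abs (by exact_mod_cast hp0)
      linarith [Real.rpow_lt_one_of_one_lt_of_neg hpR (neg_neg_of_pos hw)]
    · refine (hc _ (Nat.mul_pos hD0 hn)).trans (EReal.coe_le_coe_iff.2 ?_)
      rw [Nat.cast_mul, mul_assoc]
      exact mul_le_mul_of_nonneg_right (le_max_left _ _) (by positivity)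
  refine (hD n hn _ (by positivity) hB).trans (EReal.coe_le_coe_iff.2 ?_)
  have : (1 : ℝ) ≤ n := Nat.one_le_cast.2 hn
  nlinarith [Nat.cast_nonneg (α := ℝ) d]

theorem dependent_symm {x y : ℝ} (h : ¬AlgebraicIndependent ℤ ![x, y]) :
    ¬AlgebraicIndependent ℤ ![y, x] := fun h' => h <| by
  have e : (![y, x] : Fin 2 → ℝ) ∘ ![1, 0] = ![x, y] := by
    funext i; fin_cases i <;> rfl
  exact e ▸ h'.comp _ (by decide)

/-- **Algebraically dependent transcendental numbers belong to the same class.** -/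
theorem classes_eq_of_dependent {x y : ℝ} (hx : Transcendental ℤ x) (hy : Transcendental ℤ y)
    (h : ¬AlgebraicIndependent ℤ ![x, y]) :
    (IsS x ↔ IsS y) ∧ (IsT x ↔ IsT y) ∧ (IsU x ↔ IsU y) := by
  have hS : IsS x ↔ IsS y :=
    ⟨isS_of_dependent hx hy h, isS_of_dependent hy hx (dependent_symm h)⟩
  have hU : IsU x ↔ IsU y :=
    ⟨isU_of_dependent hy (dependent_symm h), isU_of_dependent hx h⟩
  refine ⟨hS, ?_, hU⟩
  rw [IsT, IsT, hS, hU, iff_true_intro (not_isA_of_transcendental hx),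
    iff_true_intro (not_isA_of_transcendental hy)]

theorem not_isU_of_isS {x : ℝ} (h : IsS x) : ¬IsU x := by
  rintro ⟨n, hn⟩
  obtain ⟨-, c, hc⟩ := h
  have h1 := top_le_iff.1 (hn ▸ mahlerExp_le_succ n x)
  exact absurd (h1 ▸ hc (n + 1) n.succ_pos) (not_le.2 (EReal.coe_lt_top _))

end FA.MahlerClass
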