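import Mathlib.Algebra.Polynomial.AlgebraMap
import Fermat.Agent.Transference.Exponents
import Mathlib.LinearAlgebra.Matrix.AbsoluteValue
import Mathlib.LinearAlgebra.Matrix.ToLinearEquiv

/-!
# Eliminating an algebraic number

If `y` has degree `m + 1` over the subring `φ R` of `ℝ`, multiplication by `a ^ N * P y` on the
basis `1, y, …, y ^ m` has a matrix over `R` whose determinant is nonzero with `P y`, and is at
most a multiple of `|P y| * H ^ m` at `φ`, `H` being the height of `P`.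
-/

set_option autoImplicit false

noncomputable section

open Finset Matrix

namespace FA.MahlerClass

variable {R : Type*} [CommRing R] (φ : R →+* ℝ) (y : ℝ) {m : ℕ}

/-- `a * y ^ (m + 1) = ∑ f l * y ^ l` is a relation of least degree. -/
structure IsMinRelation (a : R) (f : Fin (m + 1) → R) : Prop where
  /-- the leading coefficient does not vanish -/
  lead : φ a ≠ 0
  /-- the relation -/
  rel : φ a * y ^ (m + 1) = ∑ l, φ (f l) * y ^ (l : ℕ)
  /-- no relation has smaller degree -/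
  indep : ∀ c : Fin (m + 1) → R, ∑ l, φ (c l) * y ^ (l : ℕ) = 0 → ∀ l, φ (c l) = 0

theorem exists_isMinRelation
    (h : ∃ k, ∃ c : Fin k → R, (∃ l, φ (c l) ≠ 0) ∧ ∑ l, φ (c l) * y ^ (l : ℕ) = 0) :
    ∃ (m : ℕ) (a : R) (f : Fin (m + 1) → R), IsMinRelation φ y a f := by
  classical
  obtain ⟨c, ⟨l₀, hl₀⟩, hc⟩ := Nat.find_spec h
  have hmin : ∀ j < Nat.find h, ∀ e : Fin j → R,
      ∑ l, φ (e l) * y ^ (l : ℕ) = 0 → ∀ l, φ (e l) = 0 := fun j hj e he l => by
    by_contra hl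
    exact Nat.find_min h hj ⟨e, ⟨l, hl⟩, he⟩
  generalize Nat.find h = k at c hc l₀ hl₀ hmin
  obtain _ | _ | m := k
  · exact l₀.elim0
  · have hl : l₀ = 0 := Fin.fin_one_eq_zero l₀
    rw [Fin.sum_univ_one, Fin.val_zero, pow_zero, mul_one] at hc
    exact absurd (hl ▸ hc) hl₀
  have hlead : φ (c (Fin.last (m + 1))) ≠ 0 := fun h0 => by
    rw [Fin.sum_univ_castSucc, h0, zero_mul, add_zero] at hc
    simp only [Fin.val_castSucc] at hc
    have h1 := hmin (m + 1) (Nat.lt_succ_self _) (fun l => c l.castSucc) hc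
    exact hl₀ (Fin.lastCases h0 h1 l₀)
  refine ⟨m, c (Fin.last (m + 1)), fun l => -c l.castSucc, hlead, ?_,
    hmin (m + 1) (Nat.lt_succ_self _)⟩
  rw [Fin.sum_univ_castSucc] at hc
  simp only [Fin.val_castSucc, Fin.val_last] at hc
  simp only [map_neg, neg_mul, sum_neg_distrib]
  linarith

/-- The coordinates of `a ^ k * y ^ k`. -/
def reduce (a : R) (f : Fin (m + 1) → R) : ℕ → Fin (m + 1) → R
  | 0 => Pi.single 0 1
  | k + 1 => fun l =>
      (Fin.cons 0 (fun i : Fin m => a * reduce a f k i.castSucc) : Fin (m + 1) → R) l +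
        reduce a f k (Fin.last m) * f l

theorem sum_reduce {a : R} {f : Fin (m + 1) → R} (h : IsMinRelation φ y a f) :
    ∀ k, ∑ l, φ (reduce a f k l) * y ^ (l : ℕ) = φ a ^ k * y ^ k
  | 0 => by
    rw [sum_eq_single 0 (fun l _ hl => by simp [reduce, hl]) (by simp)]
    simp [reduce]
  | k + 1 => by
    have ih := sum_reduce h k
    rw [Fin.sum_univ_castSucc] at ih
    simp only [Fin.val_castSucc, Fin.val_last] at ih
    simp only [reduce, map_add, map_mul, add_mul, sum_add_distrib, mul_assoc, ← mul_sum]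
    rw [← h.rel, Fin.sum_univ_succ]
    simp only [Fin.cons_zero, map_zero, zero_mul, zero_add, Fin.cons_succ, map_mul, Fin.val_succ]
    calc ∑ x : Fin m, φ a * φ (reduce a f k x.castSucc) * y ^ ((x : ℕ) + 1) +
          φ (reduce a f k (Fin.last m)) * (φ a * y ^ (m + 1))
        = φ a * y * (∑ i : Fin m, φ (reduce a f k i.castSucc) * y ^ (i : ℕ) +
            φ (reduce a f k (Fin.last m)) * y ^ m) := by
          rw [mul_add, mul_sum]
          exact congrArg₂ (· + ·) (sum_congr rfl fun i _ => by ring) (by ring)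
      _ = φ a ^ (k + 1) * y ^ (k + 1) := by rw [ih]; ring

/-- The value at `y` of the polynomial with coefficients `p`. -/
def polyEval {n : ℕ} (p : Fin (n + 1) → ℤ) (x : ℝ) : ℝ := ∑ j, (p j : ℝ) * x ^ (j : ℕ)

/-- The matrix of multiplication by `a ^ (n + m) * P y`. -/
def mulMatrix (a : R) (f : Fin (m + 1) → R) {n : ℕ} (p : Fin (n + 1) → ℤ) :
    Matrix (Fin (m + 1)) (Fin (m + 1)) R :=
  Matrix.of fun j l => ∑ i : Fin (n + 1),
    (p i : R) * (a ^ (n + m - ((i : ℕ) + j)) * reduce a f (i + j) l)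

theorem map_mulMatrix_mulVec {a : R} {f : Fin (m + 1) → R} (h : IsMinRelation φ y a f) {n : ℕ}
    (p : Fin (n + 1) → ℤ) (j : Fin (m + 1)) :
    ((mulMatrix a f p).map φ *ᵥ fun l => y ^ (l : ℕ)) j =
      φ a ^ (n + m) * polyEval p y * y ^ (j : ℕ) := by
  simp only [mulVec, dotProduct, Matrix.map_apply, mulMatrix, Matrix.of_apply, map_sum, sum_mul]
  rw [sum_comm, polyEval, mul_sum, sum_mul]
  refine sum_congr rfl fun i _ => ?_
  simp only [map_mul, map_intCast, map_pow, mul_assoc, ← mul_sum]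
  rw [sum_reduce φ y h, ← mul_assoc (φ a ^ _), ← pow_add,
    Nat.sub_add_cancel (by have := i.isLt; have := j.isLt; omega)]
  ring

theorem map_det_mulMatrix_ne_zero [IsDomain R] (hφ : Function.Injective φ) {a : R}
    {f : Fin (m + 1) → R} (h : IsMinRelation φ y a f) {n : ℕ} {p : Fin (n + 1) → ℤ}
    (hp : polyEval p y ≠ 0) : φ (mulMatrix a f p).det ≠ 0 := by
  rw [ne_eq, map_eq_zero_iff φ hφ]
  intro hdet
  obtain ⟨c, hc, hcM⟩ := Matrix.exists_vecMul_eq_zero_iff.2 hdet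
  have h0 : ∑ l, (φ.mapMatrix (mulMatrix a f p) *ᵥ fun k => y ^ (k : ℕ)) l * φ (c l) = 0 := by
    have e : (fun l => φ (c l)) ᵥ* (mulMatrix a f p).map φ = 0 := funext fun l => by
      refine ((RingHom.map_vecMul φ (mulMatrix a f p) c l).symm.trans ?_)
      rw [hcM, Pi.zero_apply, map_zero, Pi.zero_apply]
    calc _ = (fun l => φ (c l)) ⬝ᵥ ((mulMatrix a f p).map φ *ᵥ fun k => y ^ (k : ℕ)) :=
          sum_congr rfl fun l _ => mul_comm _ _
      _ = 0 := by rw [dotProduct_mulVec, e, zero_dotProduct]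
  simp only [RingHom.mapMatrix_apply, map_mulMatrix_mulVec φ y h, mul_assoc, ← mul_sum] at h0
  have h1 := h.indep c (((sum_congr rfl fun l _ => mul_comm _ _)).trans
    (((mul_eq_zero.1 h0).resolve_left (pow_ne_zero _ h.lead) |> mul_eq_zero.1).resolve_left hp))
  exact hc (funext fun l => (map_eq_zero_iff φ hφ).1 (h1 l))

theorem exists_abs_mulMatrix_le (ψ : R →+* ℝ) (a : R) (f : Fin (m + 1) → R) (n : ℕ) :
    ∃ C, 0 ≤ C ∧ ∀ (p : Fin (n + 1) → ℤ) (j l : Fin (m + 1)),
      |(mulMatrix a f p).map ψ j l| ≤ C * ‖p‖ := by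
  refine ⟨∑ j : Fin (m + 1), ∑ l : Fin (m + 1), ∑ i : Fin (n + 1),
    |ψ (a ^ (n + m - ((i : ℕ) + j)) * reduce a f (i + j) l)|,
    sum_nonneg fun _ _ => sum_nonneg fun _ _ => sum_nonneg fun _ _ => abs_nonneg _,
    fun p j l => ?_⟩
  rw [Matrix.map_apply, mulMatrix, Matrix.of_apply, map_sum]
  refine (abs_sum_le_sum_abs _ _).trans ((sum_le_sum (g := fun i : Fin (n + 1) =>
    |ψ (a ^ (n + m - ((i : ℕ) + j)) * reduce a f (i + j) l)| * ‖p‖) fun i _ => ?_).trans
      ((sum_mul _ _ _).symm.le.trans ?_))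
  · rw [map_mul, map_intCast, abs_mul, mul_comm |(p i : ℝ)|]
    refine mul_le_mul_of_nonneg_left ?_ (abs_nonneg _)
    rw [← Int.norm_eq_abs]
    exact norm_le_pi_norm p i
  · refine mul_le_mul_of_nonneg_right ?_ (norm_nonneg _)
    exact (single_le_sum (f := fun l => ∑ i : Fin (n + 1),
        |ψ (a ^ (n + m - ((i : ℕ) + j)) * reduce a f (i + j) l)|)
        (fun _ _ => sum_nonneg fun _ _ => abs_nonneg _) (mem_univ l)).trans
      (single_le_sum (f := fun j : Fin (m + 1) => ∑ l : Fin (m + 1), ∑ i : Fin (n + 1),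
        |ψ (a ^ (n + m - ((i : ℕ) + j)) * reduce a f (i + j) l)|)
        (fun _ _ => sum_nonneg fun _ _ => sum_nonneg fun _ _ => abs_nonneg _) (mem_univ j))

theorem abs_det_le_of_abs_le {k : ℕ} {A : Matrix (Fin k) (Fin k) ℝ} {X : ℝ}
    (h : ∀ i j, |A i j| ≤ X) : |A.det| ≤ k.factorial * X ^ k := by
  have := Matrix.det_le (abv := AbsoluteValue.abs) (A := A) (x := X) h
  simpa [nsmul_eq_mul] using this

/-- Every height bound survives evaluation of the determinant. -/
theorem exists_abs_det_le (ψ : R →+* ℝ) (a : R) (f : Fin (m + 1) → R) (n : ℕ) :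
    ∃ C, 0 ≤ C ∧ ∀ p : Fin (n + 1) → ℤ, |ψ (mulMatrix a f p).det| ≤ C * ‖p‖ ^ (m + 1) := by
  obtain ⟨C, hC, h⟩ := exists_abs_mulMatrix_le ψ a f n
  refine ⟨(m + 1).factorial * C ^ (m + 1), by positivity, fun p => ?_⟩
  rw [RingHom.map_det, RingHom.mapMatrix_apply, mul_assoc, ← mul_pow]
  exact abs_det_le_of_abs_le (h p)

/-- **The determinant is small with `P y`.** -/
theorem exists_abs_det_le_eval {a : R} {f : Fin (m + 1) → R} (h : IsMinRelation φ y a f)
    (n : ℕ) : ∃ C, 0 ≤ C ∧ ∀ p : Fin (n + 1) → ℤ,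
      |φ (mulMatrix a f p).det| ≤ C * (|polyEval p y| * ‖p‖ ^ m) := by
  obtain ⟨C, hC, hb⟩ := exists_abs_mulMatrix_le φ a f n
  refine ⟨|φ a ^ (n + m)| * (((m.factorial : ℝ) * C ^ m) * ∑ l : Fin (m + 1), |y| ^ (l : ℕ)),
    mul_nonneg (abs_nonneg _)
      (mul_nonneg (by positivity) (sum_nonneg fun _ _ => pow_nonneg (abs_nonneg _) _)),
    fun p => ?_⟩
  set M := (mulMatrix a f p).map φ with hM
  set v : Fin (m + 1) → ℝ := fun l => y ^ (l : ℕ) with hv
  have hMv : M *ᵥ v = (φ a ^ (n + m) * polyEval p y) • v := funext fun j => by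
    rw [hM, hv, map_mulMatrix_mulVec φ y h, Pi.smul_apply, smul_eq_mul]
  have e : adjugate M *ᵥ (M *ᵥ v) = M.det • v := by
    rw [mulVec_mulVec, adjugate_mul, smul_mulVec, one_mulVec]
  rw [hMv, mulVec_smul] at e
  have e0 : φ a ^ (n + m) * polyEval p y * (adjugate M *ᵥ v) 0 = M.det := by
    have := congrFun e 0
    simpa [hv] using this
  rw [RingHom.map_det, RingHom.mapMatrix_apply, ← hM, ← e0, abs_mul, abs_mul]
  have hadj : |(adjugate M *ᵥ v) 0| ≤
      (m.factorial : ℝ) * C ^ m * ‖p‖ ^ m * ∑ l : Fin (m + 1), |y| ^ (l : ℕ) := by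
    rw [mulVec, dotProduct, mul_sum]
    refine (abs_sum_le_sum_abs _ _).trans (sum_le_sum fun l _ => ?_)
    rw [abs_mul, hv, abs_pow]
    refine mul_le_mul_of_nonneg_right ?_ (by positivity)
    rw [adjugate_fin_succ_eq_det_submatrix, abs_mul, abs_pow, abs_neg, abs_one, one_pow, one_mul,
      mul_assoc, ← mul_pow]
    exact abs_det_le_of_abs_le fun i j => hb p _ _
  calc |φ a ^ (n + m)| * |polyEval p y| * |(adjugate M *ᵥ v) 0|
      ≤ |φ a ^ (n + m)| * |polyEval p y| *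
          ((m.factorial : ℝ) * C ^ m * ‖p‖ ^ m * ∑ l : Fin (m + 1), |y| ^ (l : ℕ)) :=
        mul_le_mul_of_nonneg_left hadj (by positivity)
    _ = _ := by ring

end FA.MahlerClass
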