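import Fermat.Agent.InhomogeneousBad.BestForms
import Fermat.Agent.MahlerClass.Elimination
import Fermat.Agent.Nondivergence.PolynomialCurve
import Mathlib.Algebra.AlgebraicCard
import Mathlib.Data.EReal.Basic
import Mathlib.NumberTheory.Transcendental.Liouville.Basic

/-!
# Mahler's exponents and classes

`mahlerExp n x` is the supremum of the `w` for which infinitely many integral polynomials of degree
at most `n` and height `H` satisfy `0 < |P x| ≤ H ^ (-w)`.
-/

set_option autoImplicit false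

noncomputable section

open Finset MeasureTheory Filter Polynomial
open scoped Topology

namespace FA.MahlerClass

open FA.Transference

variable {n : ℕ}

/-- The `p` with `0 < |P x| ≤ H ^ (-w)`. -/
def smallSet (n : ℕ) (x w : ℝ) : Set (Fin (n + 1) → ℤ) :=
  {p | polyEval p x ≠ 0 ∧ |polyEval p x| ≤ ‖p‖ ^ (-w)}

/-- Mahler's exponent `w n`. -/
def mahlerExp (n : ℕ) (x : ℝ) : EReal :=
  sSup ((fun w : ℝ => (w : EReal)) '' {w | (smallSet n x w).Infinite})

theorem ne_zero_of_mem {x w : ℝ} {p : Fin (n + 1) → ℤ} (h : p ∈ smallSet n x w) : p ≠ 0 :=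
  fun h0 => h.1 (by simp [h0, polyEval])

theorem smallSet_anti {x w w' : ℝ} (h : w ≤ w') : smallSet n x w' ⊆ smallSet n x w :=
  fun _ hp => ⟨hp.1, hp.2.trans
    (Real.rpow_le_rpow_of_exponent_le (one_le_norm_intVector (ne_zero_of_mem hp)) (neg_le_neg h))⟩

theorem le_mahlerExp {x w : ℝ} (h : (smallSet n x w).Infinite) : (w : EReal) ≤ mahlerExp n x :=
  le_sSup ⟨w, h, rfl⟩

theorem finite_of_mahlerExp_lt {x w : ℝ} (h : mahlerExp n x < w) : (smallSet n x w).Finite := by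
  by_contra hinf
  exact (le_mahlerExp hinf).not_gt h

theorem mahlerExp_le_iff {x B : ℝ} :
    mahlerExp n x ≤ B ↔ ∀ w, B < w → (smallSet n x w).Finite := by
  refine ⟨fun h w hw => finite_of_mahlerExp_lt (h.trans_lt (EReal.coe_lt_coe_iff.2 hw)),
    fun h => sSup_le ?_⟩
  rintro _ ⟨w, hw, rfl⟩
  exact EReal.coe_le_coe_iff.2 (not_lt.1 fun hlt => hw (h w hlt))

theorem mahlerExp_eq_top_iff {x : ℝ} :
    mahlerExp n x = ⊤ ↔ ∀ w, (smallSet n x w).Infinite := by
  refine ⟨fun h w hfin => ?_, fun h => EReal.eq_top_iff_forall_lt _ |>.2 fun y => ?_⟩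
  · have hle : mahlerExp n x ≤ (w : EReal) :=
      mahlerExp_le_iff.2 fun v hv => hfin.subset (smallSet_anti hv.le)
    exact absurd (h ▸ hle) (not_le.2 (EReal.coe_lt_top w))
  · exact lt_of_lt_of_le (EReal.coe_lt_coe_iff.2 (lt_add_one y)) (le_mahlerExp (h (y + 1)))

theorem infinite_of_forall_exists {x w : ℝ}
    (h : ∀ ε, 0 < ε → ∃ p ∈ smallSet n x w, |polyEval p x| < ε) : (smallSet n x w).Infinite := by
  intro hfin
  obtain ⟨p₁, hp₁, -⟩ := h 1 one_pos
  obtain ⟨p₀, hp₀, hmin⟩ :=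
    Set.exists_min_image _ (fun p => |polyEval p x|) hfin ⟨p₁, hp₁⟩
  obtain ⟨p, hp, hlt⟩ := h _ (abs_pos.2 hp₀.1)
  exact (hmin p hp).not_gt hlt

theorem mahlerExp_le_succ (n : ℕ) (x : ℝ) : mahlerExp n x ≤ mahlerExp (n + 1) x := by
  refine sSup_le ?_
  rintro _ ⟨w, hw, rfl⟩
  refine le_mahlerExp ?_
  have hmaps : Set.MapsTo (fun p : Fin (n + 1) → ℤ => (Fin.snoc p 0 : Fin (n + 2) → ℤ))
      (smallSet n x w) (smallSet (n + 1) x w) := fun p hp => by
    have e : polyEval (Fin.snoc p 0 : Fin (n + 2) → ℤ) x = polyEval p x := by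
      simp [polyEval, Fin.sum_univ_castSucc]
    have en : ‖(Fin.snoc p 0 : Fin (n + 2) → ℤ)‖ = ‖p‖ := by
      refine le_antisymm ((pi_norm_le_iff_of_nonneg (norm_nonneg _)).2 fun i => ?_)
        ((pi_norm_le_iff_of_nonneg (norm_nonneg _)).2 fun i => ?_)
      · refine Fin.lastCases ?_ (fun j => ?_) i
        · simp
        · rw [Fin.snoc_castSucc]; exact norm_le_pi_norm p j
      · exact le_of_eq_of_le (by rw [Fin.snoc_castSucc])
          (norm_le_pi_norm (Fin.snoc p 0 : Fin (n + 2) → ℤ) i.castSucc)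
    exact ⟨e ▸ hp.1, by rw [e, en]; exact hp.2⟩
  refine Set.infinite_of_injOn_mapsTo (fun p _ q _ h => _root_.funext fun i => ?_) hmaps hw
  simpa using congrFun h i.castSucc

theorem mahlerExp_mono (x : ℝ) : Monotone fun n => mahlerExp n x :=
  monotone_nat_of_le_succ fun n => mahlerExp_le_succ n x

theorem polyEval_eq_aeval (p : Fin (n + 1) → ℤ) (x : ℝ) :
    polyEval p x = aeval x (∑ j, C (p j) * X ^ (j : ℕ)) := by
  simp [polyEval, map_sum]

theorem polyEval_ne_zero {x : ℝ} (hx : Transcendental ℤ x) {p : Fin (n + 1) → ℤ} (hp : p ≠ 0) :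
    polyEval p x ≠ 0 := fun h => hp <| funext fun i => by
  rw [polyEval_eq_aeval] at h
  have h0 := congrArg (fun P : ℤ[X] => P.coeff (i : ℕ))
    (transcendental_iff_injective.1 hx (h.trans (map_zero _).symm))
  simpa [finsetSum_coeff, coeff_C_mul, coeff_X_pow, Fin.val_inj] using h0

/-- **The box principle.** -/
theorem exists_small_polyEval (hn : 0 < n) (x : ℝ) {T : ℕ} (hT : 0 < T) :
    ∃ p : Fin (n + 1) → ℤ, p ≠ 0 ∧ ‖p‖ ≤ (∑ i : Fin n, |x ^ ((i : ℕ) + 1)| + 2) * T ∧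
      |polyEval p x| ≤ 1 / (T : ℝ) ^ n := by
  obtain ⟨m, hm, hmT, hd⟩ :=
    InhomogeneousBad.exists_formDist_le hn (fun i : Fin n => x ^ ((i : ℕ) + 1)) hT
  set S : ℝ := ∑ i : Fin n, (m i : ℝ) * x ^ ((i : ℕ) + 1) with hS
  refine ⟨Fin.cons (-round S) m, fun h => hm (funext fun i => congrFun h i.succ), ?_, ?_⟩
  · have hT1 : (1 : ℝ) ≤ T := Nat.one_le_cast.2 hT
    have hsum : 0 ≤ ∑ i : Fin n, |x ^ ((i : ℕ) + 1)| := sum_nonneg fun _ _ => abs_nonneg _
    have hS' : |S| ≤ (∑ i : Fin n, |x ^ ((i : ℕ) + 1)|) * T := by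
      rw [hS, sum_mul]
      refine (abs_sum_le_sum_abs _ _).trans (sum_le_sum fun i _ => ?_)
      rw [abs_mul, mul_comm]
      refine mul_le_mul_of_nonneg_left ?_ (abs_nonneg _)
      rw [← Int.norm_eq_abs]
      exact (norm_le_pi_norm m i).trans hmT
    refine (pi_norm_le_iff_of_nonneg (by positivity)).2 (Fin.cases ?_ fun i => ?_)
    · rw [Fin.cons_zero, norm_neg, Int.norm_eq_abs]
      linarith [abs_sub_abs_le_abs_sub (round S : ℝ) S, abs_sub_comm (round S : ℝ) S,
        abs_sub_round S]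
    · rw [Fin.cons_succ]
      exact ((norm_le_pi_norm m i).trans hmT).trans
        (le_mul_of_one_le_left (Nat.cast_nonneg T) (by linarith))
  · refine le_of_eq_of_le ?_ hd
    rw [InhomogeneousBad.formDist, polyEval, Fin.sum_univ_succ, ← hS]
    simp only [Fin.cons_zero, Fin.cons_succ, Fin.val_zero, pow_zero, mul_one, Fin.val_succ,
      Int.cast_neg]
    rw [← hS, neg_add_eq_sub]

/-- **`w n ≥ n` at a number algebraic of no degree `≤ n`.** -/
theorem le_mahlerExp_of_forall_ne_zero {x : ℝ}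
    (hx : ∀ p : Fin (n + 1) → ℤ, p ≠ 0 → polyEval p x ≠ 0) (hn : 0 < n) :
    ((n : ℝ) : EReal) ≤ mahlerExp n x := by
  refine EReal.le_of_forall_lt_iff_le.1 fun z hz => ?_
  by_contra hlt
  rw [not_le, EReal.coe_lt_coe_iff] at hlt
  set w : ℝ := max z 0 with hw
  have hwn : w < n := max_lt hlt (Nat.cast_pos.2 hn)
  refine (le_mahlerExp ?_).not_gt (hz.trans_le (EReal.coe_le_coe_iff.2 (le_max_left z 0)))
  set c : ℝ := ∑ i : Fin n, |x ^ ((i : ℕ) + 1)| + 2 with hc
  have hc0 : 0 < c := by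
    have : 0 ≤ ∑ i : Fin n, |x ^ ((i : ℕ) + 1)| := sum_nonneg fun _ _ => abs_nonneg _
    linarith
  refine infinite_of_forall_exists fun ε hε => ?_
  obtain ⟨T, hT1, hT2, hT3⟩ : ∃ T : ℕ, 0 < T ∧ c ^ w * (T : ℝ) ^ (-((n : ℝ) - w)) ≤ 1 ∧
      1 * (T : ℝ) ^ (-(n : ℝ)) < ε := by
    have h := ((tendsto_mul_rpow_neg (c ^ w) (sub_pos.2 hwn)).eventually_le_const
      zero_lt_one).and ((tendsto_mul_rpow_neg 1 (Nat.cast_pos.2 hn :
        (0 : ℝ) < n)).eventually_lt_const hε)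
    obtain ⟨T, hT, h0⟩ :=
      ((tendsto_natCast_atTop_atTop.eventually h).and (eventually_gt_atTop 0)).exists
    exact ⟨T, h0, hT⟩
  have hTR : (0 : ℝ) < T := Nat.cast_pos.2 hT1
  obtain ⟨p, hp, hpn, hpe⟩ := exists_small_polyEval hn x hT1
  have hpe' : |polyEval p x| ≤ (T : ℝ) ^ (-(n : ℝ)) := by
    rwa [Real.rpow_neg hTR.le, Real.rpow_natCast, ← one_div]
  refine ⟨p, ⟨hx p hp, hpe'.trans ?_⟩, ?_⟩
  · refine le_trans ?_ (Real.rpow_le_rpow_of_nonpos
      (zero_lt_one.trans_le (one_le_norm_intVector hp)) hpn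
      (neg_nonpos.2 (le_max_right z 0)))
    rw [Real.mul_rpow hc0.le hTR.le]
    refine le_of_mul_le_mul_left ?_ (Real.rpow_pos_of_pos hc0 w)
    rw [← mul_assoc, ← Real.rpow_add hc0, add_neg_cancel, Real.rpow_zero, one_mul]
    calc c ^ w * (T : ℝ) ^ (-(n : ℝ))
        = c ^ w * (T : ℝ) ^ (-((n : ℝ) - w)) * (T : ℝ) ^ (-w) := by
          rw [mul_assoc, ← Real.rpow_add hTR]
          ring_nf
      _ ≤ 1 * (T : ℝ) ^ (-w) := by gcongr
      _ = _ := one_mul _
  · linarith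

/-- **A transcendental number has `w n ≥ n`.** -/
theorem le_mahlerExp_of_transcendental {x : ℝ} (hx : Transcendental ℤ x) (hn : 0 < n) :
    ((n : ℝ) : EReal) ≤ mahlerExp n x :=
  le_mahlerExp_of_forall_ne_zero (fun _ hp => polyEval_ne_zero hx hp) hn

/-- Liouville's inequality from a shortest relation among `1, x, …, x ^ (m + 1)`. -/
theorem mahlerExp_le_of_isMinRelation {x : ℝ} {m : ℕ} {a : ℤ} {f : Fin (m + 1) → ℤ}
    (h : IsMinRelation (Int.castRingHom ℝ) x a f) (n : ℕ) :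
    mahlerExp n x ≤ ((m : ℝ) : EReal) := by
  refine mahlerExp_le_iff.2 fun w hw => ?_
  obtain ⟨C, hC, hb⟩ := exists_abs_det_le_eval (Int.castRingHom ℝ) x h n
  by_contra hinf
  obtain ⟨R, hR⟩ := eventually_atTop.1
    ((tendsto_mul_rpow_neg C (sub_pos.2 hw)).eventually_lt_const zero_lt_one)
  obtain ⟨p, ⟨hp0, hp⟩, hpR⟩ := exists_norm_gt hinf R
  have hp1 : 0 < ‖p‖ := zero_lt_one.trans_le (one_le_norm_intVector (ne_zero_of_mem ⟨hp0, hp⟩))
  have h1 : (1 : ℝ) ≤ |(Int.castRingHom ℝ) (mulMatrix a f p).det| := by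
    have hd : (mulMatrix a f p).det ≠ 0 := fun h0 =>
      map_det_mulMatrix_ne_zero (Int.castRingHom ℝ) x Int.cast_injective h hp0
        (by rw [h0, map_zero])
    rw [eq_intCast]
    exact_mod_cast Int.one_le_abs hd
  have h2 := h1.trans ((hb p).trans (mul_le_mul_of_nonneg_left
    (mul_le_mul_of_nonneg_right hp (by positivity)) hC))
  rw [← Real.rpow_natCast ‖p‖ m, ← Real.rpow_add hp1,
    show -w + (m : ℝ) = -(w - m) by ring] at h2
  linarith [hR _ hpR.le]

/-- **Liouville's inequality.** -/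
theorem exists_mahlerExp_le_of_algebraic {x : ℝ} (hx : IsAlgebraic ℤ x) :
    ∃ d : ℕ, ∀ n, mahlerExp n x ≤ ((d : ℝ) : EReal) := by
  obtain ⟨P, hP0, hP⟩ := hx
  obtain ⟨m, a, f, h⟩ := exists_isMinRelation (Int.castRingHom ℝ) x
    ⟨P.natDegree + 1, fun l => P.coeff l, ⟨Fin.last _, by
      simpa using leadingCoeff_ne_zero.2 hP0⟩, by
      rw [aeval_eq_sum_range] at hP
      rw [Fin.sum_univ_eq_sum_range (fun l => (Int.castRingHom ℝ) (P.coeff l) * x ^ l)]
      simpa [zsmul_eq_mul] using hP⟩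
  exact ⟨m, mahlerExp_le_of_isMinRelation h⟩

/-- Mahler's `A`-numbers: `w n = o (n)`. -/
def IsA (x : ℝ) : Prop :=
  ∀ ε : ℝ, 0 < ε → ∀ᶠ n : ℕ in atTop, mahlerExp n x ≤ ((ε * n : ℝ) : EReal)

/-- Mahler's `S`-numbers: `w n = O (n)`, not `o (n)`. -/
def IsS (x : ℝ) : Prop :=
  ¬IsA x ∧ ∃ c : ℝ, ∀ n : ℕ, 0 < n → mahlerExp n x ≤ ((c * n : ℝ) : EReal)

/-- Mahler's `U`-numbers: some `w n` is infinite. -/
def IsU (x : ℝ) : Prop := ∃ n, mahlerExp n x = ⊤

/-- Mahler's `T`-numbers: `w n` is finite but not `O (n)`. -/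
def IsT (x : ℝ) : Prop := ¬IsA x ∧ ¬IsS x ∧ ¬IsU x

theorem not_isA_of_transcendental {x : ℝ} (hx : Transcendental ℤ x) : ¬IsA x := by
  intro h
  obtain ⟨n, hn, hn0⟩ := ((h (1 / 2) one_half_pos).and (eventually_gt_atTop 0)).exists
  have h1 := EReal.coe_le_coe_iff.1 ((le_mahlerExp_of_transcendental hx hn0).trans hn)
  have : (0 : ℝ) < n := Nat.cast_pos.2 hn0
  linarith

/-- **The `A`-numbers are the algebraic numbers.** -/
theorem isA_iff_isAlgebraic {x : ℝ} : IsA x ↔ IsAlgebraic ℤ x := by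
  refine ⟨fun h => by_contra fun hx => not_isA_of_transcendental hx h, fun hx ε hε => ?_⟩
  obtain ⟨d, hd⟩ := exists_mahlerExp_le_of_algebraic hx
  filter_upwards [eventually_ge_atTop ⌈(d : ℝ) / ε⌉₊] with n hn
  refine (hd n).trans (EReal.coe_le_coe_iff.2 ?_)
  have := (div_le_iff₀ hε).1 ((Nat.le_ceil _).trans (Nat.cast_le.2 hn))
  linarith

theorem not_isU_of_isAlgebraic {x : ℝ} (hx : IsAlgebraic ℤ x) : ¬IsU x := by
  rintro ⟨n, hn⟩
  obtain ⟨d, hd⟩ := exists_mahlerExp_le_of_algebraic hx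
  exact absurd (hn ▸ hd n) (not_le.2 (EReal.coe_lt_top _))

/-- **Liouville numbers are exactly those with `w 1 = ∞`.** -/
theorem mahlerExp_one_eq_top_iff {x : ℝ} : mahlerExp 1 x = ⊤ ↔ Liouville x := by
  constructor
  · intro h k
    have hirr : Irrational x := by
      by_contra hq
      obtain ⟨q, rfl⟩ := not_not.1 hq
      refine not_isU_of_isAlgebraic ⟨C (q.den : ℤ) * X - C q.num, fun h0 => ?_, ?_⟩ ⟨1, h⟩
      · simpa using congrArg derivative h0
      · simp [Rat.cast_def]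
        field_simp
        ring
    obtain ⟨p, ⟨hp0, hp⟩, hpR⟩ :=
      exists_norm_gt (mahlerExp_eq_top_iff.1 h ((k : ℝ) + 2)) ((2 : ℝ) ^ k)
    set H := ‖p‖ with hH
    have hH1 : 1 ≤ H := one_le_norm_intVector (ne_zero_of_mem ⟨hp0, hp⟩)
    have hev : polyEval p x = (p 0 : ℝ) + p 1 * x := by simp [polyEval, Fin.sum_univ_two]
    have hp1 : p 1 ≠ 0 := fun h1 => by
      rw [hev, h1, Int.cast_zero, zero_mul, add_zero] at hp0 hp
      have h2 : (1 : ℝ) ≤ |(p 0 : ℝ)| := by exact_mod_cast Int.one_le_abs (by exact_mod_cast hp0)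
      have h3 : H ^ (-((k : ℝ) + 2)) < 1 :=
        Real.rpow_lt_one_of_one_lt_of_neg (lt_of_le_of_lt (one_le_pow₀ one_le_two) hpR)
          (by linarith [k.cast_nonneg (α := ℝ)])
      linarith
    set b : ℤ := 2 * |p 1| with hb
    set a : ℤ := -2 * p 0 * (p 1).sign with ha
    have hb1 : 1 < b := by have := Int.one_le_abs hp1; omega
    have hbR : (b : ℝ) ≤ 2 * H := by
      rw [hb, Int.cast_mul, Int.cast_ofNat, Int.cast_abs, ← Int.norm_eq_abs]
      exact mul_le_mul_of_nonneg_left (norm_le_pi_norm p 1) two_pos.le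
    have hpR' : (p 1 : ℝ) ≠ 0 := Int.cast_ne_zero.2 hp1
    have hab : (a : ℝ) / b = -(p 0 : ℝ) / p 1 := by
      rw [ha, hb]
      rcases lt_or_gt_of_ne hp1 with h1 | h1
      · rw [Int.sign_eq_neg_one_of_neg h1, abs_of_neg h1]
        push_cast
        field_simp
      · rw [Int.sign_eq_one_of_pos h1, abs_of_pos h1]
        push_cast
        field_simp
    refine ⟨a, b, hb1, fun e => hirr ⟨(a : ℚ) / b, by push_cast; exact e.symm⟩, ?_⟩
    have hbpos : (0 : ℝ) < b := by exact_mod_cast zero_lt_one.trans hb1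
    calc |x - (a : ℝ) / b| = |polyEval p x| / |(p 1 : ℝ)| := by
          rw [hab, hev, ← abs_div]
          congr 1
          field_simp
          ring
      _ ≤ |polyEval p x| := div_le_self (abs_nonneg _) (by exact_mod_cast Int.one_le_abs hp1)
      _ ≤ H ^ (-((k : ℝ) + 2)) := hp
      _ < 1 / (b : ℝ) ^ k := by
          rw [Real.rpow_neg (by linarith), ← one_div,
            show (k : ℝ) + 2 = ((k + 2 : ℕ) : ℝ) by push_cast; ring, Real.rpow_natCast]
          refine one_div_lt_one_div_of_lt (pow_pos hbpos k) ?_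
          calc (b : ℝ) ^ k ≤ 2 ^ k * H ^ k := by
                rw [← mul_pow]
                exact pow_le_pow_left₀ hbpos.le hbR k
            _ < H * H ^ k := mul_lt_mul_of_pos_right hpR (by positivity)
            _ ≤ H ^ (k + 2) := by
                rw [← pow_succ']
                exact pow_le_pow_right₀ hH1 (Nat.le_succ _)
  · intro hL
    refine mahlerExp_eq_top_iff.2 fun w => ?_
    refine Set.Infinite.mono (smallSet_anti (le_max_left w 0)) ?_
    refine infinite_of_forall_exists fun ε hε => ?_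
    set v : ℝ := max w 0 with hv
    obtain ⟨k, hk1, hk2⟩ : ∃ k : ℕ, (|x| + 2) ^ v * (2 : ℝ) ^ (v + 1) ≤ 2 ^ (k : ℝ) ∧
        (2 : ℝ) ^ (-((k : ℝ) - 1)) < ε ∧ v + 1 ≤ (k : ℝ) := by
      obtain ⟨k₁, hk₁⟩ := pow_unbounded_of_one_lt ((|x| + 2) ^ v * (2 : ℝ) ^ (v + 1)) one_lt_two
      obtain ⟨k₂, hk₂⟩ := pow_unbounded_of_one_lt (2 / ε) one_lt_two
      set k := k₁ + k₂ + ⌈v + 1⌉₊ with hk
      refine ⟨k, ?_, ?_, (Nat.le_ceil _).trans (Nat.cast_le.2 (Nat.le_add_left _ _))⟩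
      · rw [Real.rpow_natCast]
        exact hk₁.le.trans (pow_le_pow_right₀ one_le_two (by omega))
      · rw [neg_sub, Real.rpow_sub two_pos, Real.rpow_one, Real.rpow_natCast, div_lt_comm₀
          (by positivity) hε]
        exact hk₂.trans_le (pow_le_pow_right₀ one_le_two (by omega))
    obtain ⟨a, b, hb, hne, hlt⟩ := hL k
    have hb2 : (2 : ℝ) ≤ b := by exact_mod_cast (by omega : (2 : ℤ) ≤ b)
    have hbpos : (0 : ℝ) < b := two_pos.trans_le hb2
    set p : Fin 2 → ℤ := ![-a, b] with hp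
    have hev : polyEval p x = b * (x - a / b) := by
      simp [hp, polyEval, Fin.sum_univ_two]
      field_simp
      ring
    have hsmall : |polyEval p x| ≤ (b : ℝ) ^ (-((k : ℝ) - 1)) := by
      rw [hev, abs_mul, abs_of_pos hbpos, neg_sub, Real.rpow_sub hbpos, Real.rpow_one,
        Real.rpow_natCast]
      exact (mul_le_mul_of_nonneg_left hlt.le hbpos.le).trans_eq (mul_one_div _ _)
    have hnorm : ‖p‖ ≤ (|x| + 2) * b := by
      have h1 : |x - (a : ℝ) / b| ≤ 1 :=
        hlt.le.trans (div_le_one_of_le₀ (one_le_pow₀ (by linarith)) (by positivity))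
      have h2 : |(a : ℝ)| ≤ (|x| + 1) * b := by
        rw [← div_le_iff₀ hbpos, ← abs_of_pos hbpos, ← abs_div]
        linarith [abs_sub_abs_le_abs_sub ((a : ℝ) / b) x, abs_sub_comm ((a : ℝ) / b) x]
      refine (pi_norm_le_iff_of_nonneg (by positivity)).2 fun i => ?_
      fin_cases i
      · simp [hp, Int.norm_eq_abs]
        linarith
      · simp [hp, Int.norm_eq_abs, abs_of_pos hbpos]
        linarith [mul_nonneg (abs_nonneg x) hbpos.le]
    refine ⟨p, ⟨?_, hsmall.trans ?_⟩, lt_of_le_of_lt (hsmall.trans ?_) hk2.1⟩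
    · rw [hev]
      exact mul_ne_zero hbpos.ne' (sub_ne_zero.2 hne)
    · refine le_trans ?_ (Real.rpow_le_rpow_of_nonpos
        (zero_lt_one.trans_le (one_le_norm_intVector fun h0 => by
          have h := congrFun h0 1
          simp [hp] at h
          omega)) hnorm (neg_nonpos.2 (le_max_right w 0)))
      have hX : (0 : ℝ) < |x| + 2 := by positivity
      rw [Real.mul_rpow hX.le hbpos.le]
      refine le_of_mul_le_mul_left ?_ (Real.rpow_pos_of_pos hX v)
      rw [← mul_assoc, ← Real.rpow_add hX, add_neg_cancel, Real.rpow_zero, one_mul]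
      calc (|x| + 2) ^ v * (b : ℝ) ^ (-((k : ℝ) - 1))
          = ((|x| + 2) ^ v * (b : ℝ) ^ (-((k : ℝ) - 1 - v))) * (b : ℝ) ^ (-v) := by
            rw [mul_assoc, ← Real.rpow_add hbpos]
            ring_nf
        _ ≤ 1 * (b : ℝ) ^ (-v) := by
            refine mul_le_mul_of_nonneg_right ?_ (by positivity)
            calc (|x| + 2) ^ v * (b : ℝ) ^ (-((k : ℝ) - 1 - v))
                ≤ (|x| + 2) ^ v * (2 : ℝ) ^ (-((k : ℝ) - 1 - v)) :=
                  mul_le_mul_of_nonneg_left (Real.rpow_le_rpow_of_nonpos two_pos hb2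
                    (by linarith [hk2.2])) (by positivity)
              _ = (|x| + 2) ^ v * (2 : ℝ) ^ (v + 1) / (2 : ℝ) ^ (k : ℝ) := by
                  rw [mul_div_assoc, ← Real.rpow_sub two_pos]
                  ring_nf
              _ ≤ 1 := div_le_one_of_le₀ hk1 (by positivity)
        _ = _ := one_mul _
    · exact Real.rpow_le_rpow_of_nonpos two_pos hb2
        (by linarith [hk2.2, le_max_right w 0])

theorem liouville_isU {x : ℝ} (hx : Liouville x) : IsU x := ⟨1, mahlerExp_one_eq_top_iff.2 hx⟩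

/-- **Almost every number has `w n = n`.** -/
theorem ae_mahlerExp_eq :
    ∀ᵐ x : ℝ, Transcendental ℤ x ∧ ∀ n : ℕ, 0 < n → mahlerExp n x = ((n : ℝ) : EReal) := by
  have h : ∀ n : ℕ, ∀ᵐ x : ℝ, 0 < n → mahlerExp n x ≤ ((n : ℝ) : EReal) := fun n => by
    rcases Nat.eq_zero_or_pos n with rfl | hn
    · simp
    filter_upwards [Nondivergence.ae_finite_small_values hn] with x hx _
    refine mahlerExp_le_iff.2 fun w hw => (hx w hw).subset fun p hp => ?_
    exact ⟨ne_zero_of_mem hp, hp.2⟩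
  have ht : ∀ᵐ x : ℝ, Transcendental ℤ x := by
    refine ae_iff.2 (Set.Countable.measure_zero ?_ _)
    simp [Transcendental, Algebraic.countable ℤ ℝ]
  filter_upwards [ht, ae_all_iff.2 h] with x hx hxn
  exact ⟨hx, fun n hn => le_antisymm (hxn n hn) (le_mahlerExp_of_transcendental hx hn)⟩

/-- **Almost every number is an `S`-number.** -/
theorem ae_isS : ∀ᵐ x : ℝ, IsS x := by
  filter_upwards [ae_mahlerExp_eq] with x hx
  exact ⟨not_isA_of_transcendental hx.1, 1, fun n hn => by rw [hx.2 n hn, one_mul]⟩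

end FA.MahlerClass
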